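import Fermat.Agent.TW.Euler.BNFull.Main

/-!
# Additive invariants vanishing on the simple modules vanish identically

* `AddInvMod.val_eq_zero_of_quot`: an additive invariant of modules over a finite algebra which
  vanishes on every `A ⧸ I`, `I` a maximal left ideal, vanishes on all finite-dimensional modules.
* `addInv_eq_zero_of_quot`: the same for an `AddInv k D` (representations of a finite group),
  in terms of the cyclic modules `k[D] ⧸ I` with the representation `repOf`.
-/

set_option autoImplicit false

namespace Fermat.Agent.TW.Euler.BNFull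

open Module

theorem AddInvMod.val_eq_zero_of_quot (k A : Type) [Field k] [Finite k] [Ring A] [Algebra k A]
    [Finite A] (Ψ : AddInvMod k A) (h : ∀ I : Ideal A, I.IsMaximal → Ψ.val (A ⧸ I) = 0)
    (M : Type) [AddCommGroup M] [Module k M] [Module A M] [IsScalarTower k A M]
    [Module.Finite k M] : Ψ.val M = 0 := by
  obtain ⟨m, hm, -⟩ := exists_mult k A Ψ _ M le_rfl
  rw [hm]
  apply Finset.sum_eq_zero
  intro q _
  rw [h _ (Quotient.out q).2, mul_zero]

theorem addInv_eq_zero_of_quot (k D : Type) [Field k] [Finite k] [Group D] [Finite D]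
    (Ψ₀ : AddInv k D)
    (h : ∀ I : Ideal (MonoidAlgebra k D), I.IsMaximal →
      Ψ₀.val (MonoidAlgebra k D ⧸ I) (repOf k D (MonoidAlgebra k D ⧸ I)) = 0)
    (W : Type) [AddCommGroup W] [Module k W] [Module.Finite k W] (τ : Representation k D W) :
    Ψ₀.val W τ = 0 := by
  haveI : Finite (D →₀ k) := Finite.of_equiv (D → k) Finsupp.equivFunOnFinite.symm
  haveI : Finite (MonoidAlgebra k D) := Finite.of_equiv (D →₀ k) MonoidAlgebra.coeffEquiv.symm
  have e1 : Ψ₀.val W τ = (toMod Ψ₀).val τ.asModule :=
    Ψ₀.val_congr τ (repOf k D τ.asModule) τ.asModuleEquiv.symm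
      (fun g v => τ.asModuleEquiv_symm_map_rho g v)
  rw [e1]
  exact AddInvMod.val_eq_zero_of_quot k (MonoidAlgebra k D) (toMod Ψ₀) h τ.asModule

end Fermat.Agent.TW.Euler.BNFull
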