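import Mathlib

/-!
# (EU-1a) Brauer–Nesbitt: linear algebra preliminaries

* `charpoly_eq_restrict_mul_mapQ`: the characteristic polynomial of an endomorphism preserving a
  subspace is the product of those of the restriction and of the induced map on the quotient.
* `trace_eq_neg_nextCoeff_charpoly`: `trace f = - nextCoeff (charpoly f)`.
* `charpoly_eq_one_of_subsingleton`.
* `pow_char_injective`: `f ^ p = h ^ p → f = h` for polynomials over a field of characteristic `p`.
-/

set_option autoImplicit false

namespace Fermat.Agent.TW.Euler.BNFull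

open Polynomial Module

section Field

variable {k V : Type*} [Field k] [AddCommGroup V] [Module k V] [Module.Finite k V]

open Module.Basis in
/-- Multiplicativity of the characteristic polynomial along an invariant subspace. -/
theorem charpoly_eq_restrict_mul_mapQ (W : Submodule k V) (e : V →ₗ[k] V)
    (he : W ≤ W.comap e) :
    e.charpoly = (e.restrict he).charpoly * (W.mapQ W e he).charpoly := by
  classical
  let m := Module.Free.ChooseBasisIndex k W
  let bW : Basis m k W := Module.Free.chooseBasis k W
  let n := Module.Free.ChooseBasisIndex k (V ⧸ W)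
  let bQ : Basis n k (V ⧸ W) := Module.Free.chooseBasis k (V ⧸ W)
  let b := sumQuot bW bQ
  let A : Matrix m m k := LinearMap.toMatrix bW bW (e.restrict he)
  let B : Matrix m n k := Matrix.of fun i l ↦
    ((sumQuot bW bQ).repr (e ((sumQuot bW bQ) (Sum.inr l)))) (Sum.inl i)
  let D : Matrix n n k := LinearMap.toMatrix bQ bQ (W.mapQ W e he)
  suffices LinearMap.toMatrix b b e = Matrix.fromBlocks A B 0 D by
    rw [← LinearMap.charpoly_toMatrix e b, this, ← LinearMap.charpoly_toMatrix _ bW,
      ← LinearMap.charpoly_toMatrix _ bQ, Matrix.charpoly_fromBlocks_zero₂₁]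
  ext u v
  cases u with
  | inl i =>
    cases v with
    | inl k =>
      simp only [b, sumQuot_inl, Matrix.fromBlocks_apply₁₁, A, LinearMap.toMatrix_apply]
      apply sumQuot_repr_inl_of_mem
    | inr l => simp [b, LinearMap.toMatrix_apply, Matrix.fromBlocks_apply₁₂, B]
  | inr j =>
    cases v with
    | inl k =>
      suffices W.mkQ (e (bW k)) = 0 by simp [LinearMap.toMatrix_apply, b, this]
      rw [← LinearMap.mem_ker, Submodule.ker_mkQ]
      exact he (Submodule.coe_mem (bW k))
    | inr l =>
      simp only [LinearMap.toMatrix_apply, sumQuot_repr_inr,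
        Matrix.fromBlocks_apply₂₂, b, D]
      rw [← sumQuot_inr bW bQ l, W.mapQ_apply]
      simp

/-- Multiplicativity of the characteristic polynomial in short exact sequences. -/
theorem charpoly_eq_mul_of_exact {V₁ V₃ : Type*} [AddCommGroup V₁] [Module k V₁]
    [Module.Finite k V₁] [AddCommGroup V₃] [Module k V₃] [Module.Finite k V₃]
    (f : V₁ →ₗ[k] V) (h : V →ₗ[k] V₃) (hf : Function.Injective f) (hh : Function.Surjective h)
    (hfh : Function.Exact f h) (e₁ : V₁ →ₗ[k] V₁) (e₂ : V →ₗ[k] V) (e₃ : V₃ →ₗ[k] V₃)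
    (c₁ : ∀ x, f (e₁ x) = e₂ (f x)) (c₂ : ∀ y, h (e₂ y) = e₃ (h y)) :
    e₂.charpoly = e₁.charpoly * e₃.charpoly := by
  have hW : LinearMap.ker h ≤ (LinearMap.ker h).comap e₂ := by
    intro y hy
    rw [Submodule.mem_comap, LinearMap.mem_ker, c₂, LinearMap.mem_ker.mp hy, map_zero]
  rw [charpoly_eq_restrict_mul_mapQ (LinearMap.ker h) e₂ hW]
  -- the sub
  let g : V₁ →ₗ[k] LinearMap.ker h :=
    f.codRestrict (LinearMap.ker h) (fun x => hfh.apply_apply_eq_zero x)
  have hg : Function.Bijective g := by
    constructor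
    · intro x y hxy
      exact hf (congrArg Subtype.val hxy)
    · rintro ⟨y, hy⟩
      obtain ⟨x, rfl⟩ := (hfh y).mp hy
      exact ⟨x, rfl⟩
  let eW : V₁ ≃ₗ[k] LinearMap.ker h := LinearEquiv.ofBijective g hg
  have h1 : eW.conj e₁ = e₂.restrict hW := by
    apply LinearMap.ext
    intro w
    obtain ⟨x, rfl⟩ := eW.surjective w
    rw [LinearEquiv.conj_apply_apply, LinearEquiv.symm_apply_apply]
    apply Subtype.ext
    exact c₁ x
  let eQ : (V ⧸ LinearMap.ker h) ≃ₗ[k] V₃ := h.quotKerEquivOfSurjective hh
  have h2 : eQ.conj ((LinearMap.ker h).mapQ (LinearMap.ker h) e₂ hW) = e₃ := by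
    apply LinearMap.ext
    intro z
    obtain ⟨y, rfl⟩ := hh z
    have hy : eQ.symm (h y) = Submodule.Quotient.mk y := by
      rw [LinearEquiv.symm_apply_eq]
      rfl
    rw [LinearEquiv.conj_apply_apply, hy, Submodule.mapQ_apply]
    exact c₂ y
  rw [← h1, ← h2, LinearEquiv.charpoly_conj, LinearEquiv.charpoly_conj]

/-- The trace is minus the next-to-leading coefficient of the characteristic polynomial. -/
theorem trace_eq_neg_nextCoeff_charpoly (f : V →ₗ[k] V) :
    LinearMap.trace k V f = -f.charpoly.nextCoeff := by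
  classical
  rw [LinearMap.trace_eq_matrix_trace k (Module.Free.chooseBasis k V) f,
    Matrix.trace_eq_neg_charpoly_nextCoeff]
  rfl

theorem charpoly_eq_one_of_subsingleton [Subsingleton V] (f : V →ₗ[k] V) : f.charpoly = 1 := by
  have hdeg : f.charpoly.natDegree = 0 := by
    rw [LinearMap.charpoly_natDegree, Module.finrank_zero_of_subsingleton]
  have hm := LinearMap.charpoly_monic f
  exact hm.natDegree_eq_zero.mp hdeg

end Field

section Frob

variable {k : Type*} [Field k] (p : ℕ) [Fact p.Prime] [CharP k p]

/-- In characteristic `p`, `f ^ p = h ^ p` implies `f = h` for polynomials. -/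
theorem pow_char_injective {f h : k[X]} (hfh : f ^ p = h ^ p) : f = h :=
  frobenius_inj k[X] p hfh

end Frob

end Fermat.Agent.TW.Euler.BNFull
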