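import Mathlib

/-!
# (EU-1a) Brauer–Nesbitt: separation of pairwise non-isomorphic simple modules

For a finite family `X i` of pairwise non-isomorphic simple `A`-modules, finite-dimensional over a
field `k` (`A` a `k`-algebra), every endomorphism `ψ` of `X i` that commutes with `End_A (X i)` is
realised by an element `a : A` which moreover kills every `X j`, `j ≠ i`
(Jacobson density on `Π j, X j` + Schur).
-/

set_option autoImplicit false

namespace Fermat.Agent.TW.Euler.BNFull

open Module

section

variable {k A : Type*} [Field k] [Ring A] [Algebra k A]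
variable {ι : Type*} [Fintype ι] [DecidableEq ι] (X : ι → Type*)
  [∀ i, AddCommGroup (X i)] [∀ i, Module k (X i)] [∀ i, Module A (X i)]
  [∀ i, IsScalarTower k A (X i)] [∀ i, Module.Finite k (X i)] [∀ i, IsSimpleModule A (X i)]

/-- Schur: an `A`-endomorphism of `Π j, X j` has no off-diagonal components. -/
theorem end_pi_offdiag (hX : ∀ i j, Nonempty (X i ≃ₗ[A] X j) → i = j)
    (φ : End A (Π j, X j)) {l j : ι} (hlj : l ≠ j) (y : X l) :
    φ (Pi.single l y) j = 0 := by
  let g : X l →ₗ[A] X j := (LinearMap.proj j) ∘ₗ φ ∘ₗ (LinearMap.single A X l)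
  have hg : g y = φ (Pi.single l y) j := rfl
  rcases LinearMap.bijective_or_eq_zero g with hb | h0
  · exact absurd (hX l j ⟨LinearEquiv.ofBijective g hb⟩) hlj
  · rw [← hg, h0]; rfl

/-- The diagonal component of an endomorphism of the product. -/
def endDiag (φ : End A (Π j, X j)) (i : ι) : End A (X i) :=
  (LinearMap.proj i) ∘ₗ φ ∘ₗ (LinearMap.single A X i)

theorem endDiag_apply (φ : End A (Π j, X j)) (i : ι) (y : X i) :
    endDiag X φ i y = φ (Pi.single i y) i := rfl

theorem end_pi_apply (hX : ∀ i j, Nonempty (X i ≃ₗ[A] X j) → i = j)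
    (φ : End A (Π j, X j)) (u : Π j, X j) (i : ι) :
    φ u i = endDiag X φ i (u i) := by
  conv_lhs => rw [← Finset.univ_sum_single u]
  rw [map_sum, Finset.sum_apply, Finset.sum_eq_single i]
  · rfl
  · intro l _ hl
    exact end_pi_offdiag X hX φ hl (u l)
  · intro h; exact absurd (Finset.mem_univ i) h

theorem end_pi_single (hX : ∀ i j, Nonempty (X i ≃ₗ[A] X j) → i = j)
    (φ : End A (Π j, X j)) (i : ι) (y : X i) :
    φ (Pi.single i y) = Pi.single i (endDiag X φ i y) := by
  funext j
  by_cases hj : j = i
  · subst hj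
    rw [Pi.single_eq_same]; rfl
  · rw [Pi.single_eq_of_ne hj]
    exact end_pi_offdiag X hX φ (Ne.symm hj) y

/-- The endomorphism of `Π j, X j` over its `A`-endomorphism ring given by `ψ` on the `i`-th
factor and by zero on the others. -/
def sepEnd (hX : ∀ i j, Nonempty (X i ≃ₗ[A] X j) → i = j) (i : ι)
    (ψ : End (End A (X i)) (X i)) : End (End A (Π j, X j)) (Π j, X j) where
  toFun u := Pi.single i (ψ (u i))
  map_add' u v := by
    rw [Pi.add_apply, map_add, Pi.single_add]
  map_smul' φ u := by
    show Pi.single i (ψ ((φ u) i)) = φ (Pi.single i (ψ (u i)))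
    rw [end_pi_apply X hX, end_pi_single X hX]
    congr 1
    exact ψ.map_smul (endDiag X φ i) (u i)

theorem sepEnd_apply (hX : ∀ i j, Nonempty (X i ≃ₗ[A] X j) → i = j) (i : ι)
    (ψ : End (End A (X i)) (X i)) (u : Π j, X j) :
    sepEnd X hX i ψ u = Pi.single i (ψ (u i)) := rfl

variable (k) in
include k in
/-- **Separation.** Every `End_A (X i)`-linear endomorphism `ψ` of `X i` is the action of some
`a : A` that kills all the other `X j`. -/
theorem exists_smul_eq_and_smul_eq_zero (hX : ∀ i j, Nonempty (X i ≃ₗ[A] X j) → i = j) (i : ι)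
    (ψ : End (End A (X i)) (X i)) :
    ∃ a : A, (∀ x : X i, a • x = ψ x) ∧ ∀ j, j ≠ i → ∀ x : X j, a • x = 0 := by
  have : Module.Finite (End A (Π j, X j)) (Π j, X j) :=
    Module.Finite.of_restrictScalars_finite k _ _
  obtain ⟨a, ha⟩ := Module.Finite.toModuleEnd_moduleEnd_surjective (R := A) (M := Π j, X j)
    (sepEnd X hX i ψ)
  have key : ∀ u : Π j, X j, a • u = Pi.single i (ψ (u i)) := by
    intro u
    have := congrArg (fun F => F u) ha
    simpa [sepEnd_apply] using this
  refine ⟨a, fun x => ?_, fun j hj x => ?_⟩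
  · have h := congrFun (key (Pi.single i x)) i
    simpa using h
  · have h := congrFun (key (Pi.single j x)) j
    rw [Pi.smul_apply, Pi.single_eq_same, Pi.single_eq_of_ne hj] at h
    exact h

end

end Fermat.Agent.TW.Euler.BNFull
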