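import Fermat.Agent.TW.Euler.BNFull.Mult

/-!
# (EU-1a) Brauer–Nesbitt: additive invariants of modules and composition multiplicities

* `AddInvMod k A`: a `ℤ`-valued invariant of `A`-modules that are finite-dimensional over `k`,
  invariant under isomorphism and additive on short exact sequences.
* `SimpleIdx A`, `SimpleRep A q`: representatives `A ⧸ I` of the isomorphism classes of simple
  `A`-modules (`I` a maximal left ideal).
* `exists_mult`: every finite-dimensional module has a multiplicity vector `m : SimpleIdx A → ℕ`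
  computing both the value of any additive invariant and all characteristic polynomials.
-/

set_option autoImplicit false

namespace Fermat.Agent.TW.Euler.BNFull

open Module Polynomial

/-- An additive invariant of `A`-modules which are finite-dimensional over `k`. -/
structure AddInvMod (k A : Type) [Field k] [Ring A] [Algebra k A] where
  /-- the value on a module -/
  val : ∀ (M : Type) [AddCommGroup M] [Module k M] [Module A M] [IsScalarTower k A M]
    [Module.Finite k M], ℤ
  /-- invariance under isomorphism -/
  val_congr : ∀ {M N : Type} [AddCommGroup M] [Module k M] [Module A M] [IsScalarTower k A M]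
    [Module.Finite k M] [AddCommGroup N] [Module k N] [Module A N] [IsScalarTower k A N]
    [Module.Finite k N] (_ : M ≃ₗ[A] N), val M = val N
  /-- additivity on short exact sequences -/
  val_exact : ∀ {M₁ M₂ M₃ : Type} [AddCommGroup M₁] [Module k M₁] [Module A M₁]
    [IsScalarTower k A M₁] [Module.Finite k M₁] [AddCommGroup M₂] [Module k M₂] [Module A M₂]
    [IsScalarTower k A M₂] [Module.Finite k M₂] [AddCommGroup M₃] [Module k M₃] [Module A M₃]
    [IsScalarTower k A M₃] [Module.Finite k M₃] (f : M₁ →ₗ[A] M₂) (h : M₂ →ₗ[A] M₃),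
    Function.Injective f → Function.Surjective h → Function.Exact f h →
    val M₂ = val M₁ + val M₃

section chi

variable (k : Type*) {A : Type*} [Field k] [Ring A] [Algebra k A]
variable {M₁ M₂ M₃ : Type*} [AddCommGroup M₁] [Module k M₁] [Module A M₁]
    [IsScalarTower k A M₁] [Module.Finite k M₁] [AddCommGroup M₂] [Module k M₂] [Module A M₂]
    [IsScalarTower k A M₂] [Module.Finite k M₂] [AddCommGroup M₃] [Module k M₃] [Module A M₃]
    [IsScalarTower k A M₃] [Module.Finite k M₃]

theorem chi_eq_mul_of_exact (f : M₁ →ₗ[A] M₂) (h : M₂ →ₗ[A] M₃)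
    (hf : Function.Injective f) (hh : Function.Surjective h) (hfh : Function.Exact f h) (a : A) :
    chi k M₂ a = chi k M₁ a * chi k M₃ a :=
  charpoly_eq_mul_of_exact (f.restrictScalars k) (h.restrictScalars k) hf hh hfh _ _ _
    (fun x => map_smul f a x) (fun y => map_smul h a y)

theorem chi_congr (e : M₁ ≃ₗ[A] M₂) (a : A) : chi k M₁ a = chi k M₂ a := by
  have : (e.restrictScalars k).conj (Algebra.lsmul k k M₁ a) = Algebra.lsmul k k M₂ a := by
    apply LinearMap.ext
    intro y
    rw [LinearEquiv.conj_apply_apply]
    show e (a • e.symm y) = a • y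
    rw [map_smul, LinearEquiv.apply_symm_apply]
  rw [chi, chi, ← this, LinearEquiv.charpoly_conj]

theorem chi_eq_one_of_subsingleton [Subsingleton M₁] (a : A) : chi k M₁ a = 1 :=
  charpoly_eq_one_of_subsingleton _

end chi

section Simple

variable (A : Type) [Ring A]

/-- Isomorphism of the cyclic quotients, as a setoid on the maximal left ideals. -/
def maxSetoid : Setoid {I : Ideal A // I.IsMaximal} where
  r I J := Nonempty ((A ⧸ I.1) ≃ₗ[A] (A ⧸ J.1))
  iseqv := ⟨fun _ => ⟨LinearEquiv.refl _ _⟩, fun ⟨e⟩ => ⟨e.symm⟩, fun ⟨e⟩ ⟨f⟩ => ⟨e.trans f⟩⟩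

/-- Index set for the isomorphism classes of simple `A`-modules. -/
def SimpleIdx : Type := Quotient (maxSetoid A)

/-- The chosen representative `A ⧸ I` of an isomorphism class of simple modules. -/
abbrev SimpleRep (q : SimpleIdx A) : Type := A ⧸ (Quotient.out q).1

instance [Finite A] : Finite (SimpleIdx A) := by
  unfold SimpleIdx
  infer_instance

noncomputable instance [Finite A] : Fintype (SimpleIdx A) := Fintype.ofFinite _

instance (q : SimpleIdx A) : IsSimpleModule A (SimpleRep A q) :=
  isSimpleModule_iff_isCoatom.mpr (Ideal.isMaximal_def.mp (Quotient.out q).2)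

theorem simpleRep_inj {q q' : SimpleIdx A}
    (h : Nonempty (SimpleRep A q ≃ₗ[A] SimpleRep A q')) : q = q' := by
  rw [← Quotient.out_eq q, ← Quotient.out_eq q']
  exact Quotient.sound h

theorem exists_simpleRep_equiv (S : Type*) [AddCommGroup S] [Module A S]
    [hS : IsSimpleModule A S] : ∃ q : SimpleIdx A, Nonempty (S ≃ₗ[A] SimpleRep A q) := by
  obtain ⟨I, hI, ⟨e⟩⟩ := isSimpleModule_iff_quot_maximal.mp hS
  refine ⟨Quotient.mk (maxSetoid A) ⟨I, hI⟩, ?_⟩
  have h := Quotient.mk_out (s := maxSetoid A) ⟨I, hI⟩
  obtain ⟨e'⟩ := h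
  exact ⟨e.trans e'.symm⟩

end Simple

section Mult

variable (k A : Type) [Field k] [Finite k] [Ring A] [Algebra k A] [Finite A]

theorem AddInvMod.val_eq_zero_of_subsingleton (Ψ : AddInvMod k A) (M : Type) [AddCommGroup M]
    [Module k M] [Module A M] [IsScalarTower k A M] [Module.Finite k M] [Subsingleton M] :
    Ψ.val M = 0 := by
  have h := Ψ.val_exact (LinearMap.id : M →ₗ[A] M) (0 : M →ₗ[A] M) Function.injective_id
    (fun y => ⟨0, Subsingleton.elim _ _⟩)
    (fun y => ⟨fun _ => ⟨y, rfl⟩, fun _ => Subsingleton.elim _ _⟩)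
  omega

/-- Every finite-dimensional module has a multiplicity vector over the simple representatives
which computes every additive invariant and all characteristic polynomials. -/
theorem exists_mult (Ψ : AddInvMod k A) :
    ∀ (d : ℕ) (M : Type) [AddCommGroup M] [Module k M] [Module A M] [IsScalarTower k A M]
      [Module.Finite k M], Module.finrank k M ≤ d →
      ∃ m : SimpleIdx A → ℕ,
        Ψ.val M = ∑ q, (m q : ℤ) * Ψ.val (SimpleRep A q) ∧
          ∀ a : A, chi k M a = ∏ q, chi k (SimpleRep A q) a ^ m q := by
  classical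
  have hsub : ∀ (M : Type) [AddCommGroup M] [Module k M] [Module A M] [IsScalarTower k A M]
      [Module.Finite k M], Subsingleton M →
      ∃ m : SimpleIdx A → ℕ,
        Ψ.val M = ∑ q, (m q : ℤ) * Ψ.val (SimpleRep A q) ∧
          ∀ a : A, chi k M a = ∏ q, chi k (SimpleRep A q) a ^ m q := by
    intro M _ _ _ _ _ hM
    refine ⟨fun _ => 0, ?_, fun a => ?_⟩
    · rw [Ψ.val_eq_zero_of_subsingleton k A M]
      simp
    · rw [chi_eq_one_of_subsingleton]
      simp
  intro d
  induction d with
  | zero =>
    intro M _ _ _ _ _ hd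
    exact hsub M (Module.finrank_zero_iff.mp (Nat.le_zero.mp hd))
  | succ d ih =>
    intro M _ _ _ _ _ hd
    by_cases hM : Subsingleton M
    · exact hsub M hM
    rw [not_subsingleton_iff_nontrivial] at hM
    haveI : Finite M := Module.finite_of_finite k
    obtain ⟨S, hS⟩ := IsAtomic.exists_atom (Submodule A M)
    haveI : IsSimpleModule A S := isSimpleModule_iff_isAtom.mpr hS
    obtain ⟨q, ⟨e⟩⟩ := exists_simpleRep_equiv A S
    have hlt : Module.finrank k (M ⧸ S) ≤ d := by
      have hrn := LinearMap.finrank_range_add_finrank_ker (S.mkQ.restrictScalars k)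
      have hr : Module.finrank k (LinearMap.range (S.mkQ.restrictScalars k))
          = Module.finrank k (M ⧸ S) := by
        have : LinearMap.range (S.mkQ.restrictScalars k) = ⊤ :=
          LinearMap.range_eq_top.mpr S.mkQ_surjective
        rw [this, finrank_top]
      have hk : 0 < Module.finrank k (LinearMap.ker (S.mkQ.restrictScalars k)) := by
        obtain ⟨x, hxS, hx0⟩ := (Submodule.ne_bot_iff S).mp hS.1
        rw [Module.finrank_pos_iff_exists_ne_zero]
        refine ⟨⟨x, ?_⟩, ?_⟩
        · rw [LinearMap.mem_ker]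
          show S.mkQ x = 0
          rw [Submodule.mkQ_apply, Submodule.Quotient.mk_eq_zero]
          exact hxS
        · intro h
          exact hx0 (congrArg Subtype.val h)
      omega
    obtain ⟨m', hΨ, hχ⟩ := ih (M ⧸ S) hlt
    refine ⟨fun q' => m' q' + if q' = q then 1 else 0, ?_, fun a => ?_⟩
    · rw [Ψ.val_exact S.subtype S.mkQ S.subtype_injective S.mkQ_surjective
        (LinearMap.exact_subtype_mkQ S), Ψ.val_congr e, hΨ]
      simp only [Nat.cast_add, Nat.cast_ite, Nat.cast_one, Nat.cast_zero, add_mul, ite_mul,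
        one_mul, zero_mul, Finset.sum_add_distrib, Finset.sum_ite_eq', Finset.mem_univ, if_true]
      ring
    · rw [chi_eq_mul_of_exact k S.subtype S.mkQ S.subtype_injective S.mkQ_surjective
        (LinearMap.exact_subtype_mkQ S) a, chi_congr k e a, hχ a]
      simp only [pow_add, pow_ite, pow_one, pow_zero, Finset.prod_mul_distrib,
        Finset.prod_ite_eq', Finset.mem_univ, if_true]
      ring

end Mult

end Fermat.Agent.TW.Euler.BNFull
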