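import Fermat.Agent.TW.Euler.BNFull.Filtration
import Fermat.Agent.TW.Euler.Ind.Contracts

/-!
# (EU-1a) The Brauer–Nesbitt form: `brauerNesbittOut : BrauerNesbittOut`

* `bn_mod`: for a finite algebra `A` over a finite field `k`, spanned by `𝒢`, two
  finite-dimensional modules on which every `g ∈ 𝒢` has the same characteristic polynomial have
  the same value under every additive invariant.
* `brauerNesbittOut`: the contract of `TW/Euler/Ind/Contracts.lean` for representations of a finite
  group over a finite field (`A = k[G]`, `𝒢 = G`).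
-/

set_option autoImplicit false

namespace Fermat.Agent.TW.Euler.BNFull

open Module Polynomial

/-- **Brauer–Nesbitt for modules over a finite algebra.** -/
theorem bn_mod (k A : Type) [Field k] [Finite k] [Ring A] [Algebra k A] [Finite A]
    (𝒢 : Set A) (h𝒢 : Submodule.span k 𝒢 = ⊤) (Ψ : AddInvMod k A)
    (M N : Type) [AddCommGroup M] [Module k M] [Module A M] [IsScalarTower k A M]
    [Module.Finite k M] [AddCommGroup N] [Module k N] [Module A N] [IsScalarTower k A N]
    [Module.Finite k N] (h : ∀ g ∈ 𝒢, chi k M g = chi k N g) : Ψ.val M = Ψ.val N := by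
  classical
  obtain ⟨p, hp⟩ := CharP.exists k
  haveI := hp
  haveI : Fact p.Prime := ⟨CharP.char_is_prime k p⟩
  obtain ⟨m, hΨm, hχm⟩ := exists_mult k A Ψ _ M le_rfl
  obtain ⟨n, hΨn, hχn⟩ := exists_mult k A Ψ _ N le_rfl
  have hmn : m = n :=
    mult_eq_of_prod_chi_eq k (SimpleRep A) p (fun i j h => simpleRep_inj A h) 𝒢 h𝒢 _ m n le_rfl
      (fun g hg => by rw [← hχm, ← hχn, h g hg])
  rw [hΨm, hΨn, hmn]

section Group

variable (k G : Type) [Field k] [Group G]

/-- The representation of `G` on a module over the group algebra. -/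
noncomputable def repOf (M : Type) [AddCommGroup M] [Module k M] [Module (MonoidAlgebra k G) M]
    [IsScalarTower k (MonoidAlgebra k G) M] : Representation k G M :=
  ((Algebra.lsmul k k M : MonoidAlgebra k G →ₐ[k] Module.End k M) :
    MonoidAlgebra k G →* Module.End k M).comp (MonoidAlgebra.of k G)

theorem repOf_apply (M : Type) [AddCommGroup M] [Module k M] [Module (MonoidAlgebra k G) M]
    [IsScalarTower k (MonoidAlgebra k G) M] (g : G) (x : M) :
    repOf k G M g x = MonoidAlgebra.of k G g • x := rfl

/-- An additive invariant of representations, as an additive invariant of `k[G]`-modules. -/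
noncomputable def toMod {k G : Type} [Field k] [Group G] (Φ : AddInv k G) :
    AddInvMod k (MonoidAlgebra k G) where
  val M := Φ.val M (repOf k G M)
  val_congr e := Φ.val_congr _ _ (e.restrictScalars k) (fun g v => map_smul e _ v)
  val_exact f h hf hh hfh := Φ.val_exact _ _ _ (f.restrictScalars k) (h.restrictScalars k)
    (fun g v => map_smul f _ v) (fun g v => map_smul h _ v) hf hh hfh

theorem span_range_of : Submodule.span k (Set.range (MonoidAlgebra.of k G)) = ⊤ := by
  have key : ∀ x : MonoidAlgebra k G,
      x ∈ Submodule.span k (Set.range (MonoidAlgebra.of k G)) := by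
    intro x
    induction x using MonoidAlgebra.induction_on with
    | of g => exact Submodule.subset_span ⟨g, rfl⟩
    | add x y hx hy => exact Submodule.add_mem _ hx hy
    | smul c x hx => exact Submodule.smul_mem _ c hx
  exact eq_top_iff.mpr (fun x _ => key x)

end Group

/-- **(EU-1a)** The Brauer–Nesbitt form. -/
theorem brauerNesbittOut : BrauerNesbittOut := by
  intro k G _ _ _ _ Φ V W _ _ _ _ _ _ ρ σ h
  haveI : Finite (G →₀ k) := Finite.of_equiv (G → k) Finsupp.equivFunOnFinite.symm
  haveI : Finite (MonoidAlgebra k G) := Finite.of_equiv (G →₀ k) MonoidAlgebra.coeffEquiv.symm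
  have e1 : Φ.val V ρ = (toMod Φ).val ρ.asModule :=
    Φ.val_congr ρ (repOf k G ρ.asModule) ρ.asModuleEquiv.symm
      (fun g v => ρ.asModuleEquiv_symm_map_rho g v)
  have e2 : Φ.val W σ = (toMod Φ).val σ.asModule :=
    Φ.val_congr σ (repOf k G σ.asModule) σ.asModuleEquiv.symm
      (fun g v => σ.asModuleEquiv_symm_map_rho g v)
  rw [e1, e2]
  refine bn_mod k (MonoidAlgebra k G) (Set.range (MonoidAlgebra.of k G)) (span_range_of k G)
    (toMod Φ) ρ.asModule σ.asModule ?_
  rintro _ ⟨g, rfl⟩
  have c1 : chi k ρ.asModule (MonoidAlgebra.of k G g) = LinearMap.charpoly (ρ g) := by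
    have : ρ.asModuleEquiv.symm.conj (ρ g)
        = Algebra.lsmul k k ρ.asModule (MonoidAlgebra.of k G g) := by
      apply LinearMap.ext
      intro y
      rw [LinearEquiv.conj_apply_apply, LinearEquiv.symm_symm, ρ.asModuleEquiv_symm_map_rho,
        LinearEquiv.symm_apply_apply]
      rfl
    rw [chi, ← this, LinearEquiv.charpoly_conj]
  have c2 : chi k σ.asModule (MonoidAlgebra.of k G g) = LinearMap.charpoly (σ g) := by
    have : σ.asModuleEquiv.symm.conj (σ g)
        = Algebra.lsmul k k σ.asModule (MonoidAlgebra.of k G g) := by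
      apply LinearMap.ext
      intro y
      rw [LinearEquiv.conj_apply_apply, LinearEquiv.symm_symm, σ.asModuleEquiv_symm_map_rho,
        LinearEquiv.symm_apply_apply]
      rfl
    rw [chi, ← this, LinearEquiv.charpoly_conj]
  rw [c1, c2, h g]

end Fermat.Agent.TW.Euler.BNFull
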