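import Fermat.Agent.TW.Euler.BNFull.Density

/-!
# (EU-1a) Brauer–Nesbitt: an element of nonzero trace on a simple module

* `exists_linearMap_trace_ne_zero`: on a nonzero vector space `S` over a finite separable field
  extension `F / k` there is an `F`-linear endomorphism whose `k`-trace is nonzero
  (a rank-one map `x ↦ (d * lam x) • s₀` with `tr_{F/k} d ≠ 0`).
-/

set_option autoImplicit false

namespace Fermat.Agent.TW.Euler.BNFull

open Module

theorem exists_linearMap_trace_ne_zero (k F S : Type*) [Field k] [Field F] [Algebra k F]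
    [FiniteDimensional k F] [Algebra.IsSeparable k F] [AddCommGroup S] [Module k S] [Module F S]
    [IsScalarTower k F S] [Module.Finite k S] [Nontrivial S] :
    ∃ ψ : S →ₗ[F] S, LinearMap.trace k S (ψ.restrictScalars k) ≠ 0 := by
  obtain ⟨s₀, hs₀⟩ := exists_ne (0 : S)
  obtain ⟨lam, hlam⟩ := Module.Projective.exists_dual_eq_one F hs₀
  obtain ⟨d, hd⟩ : ∃ d : F, Algebra.trace k F d ≠ 0 := by
    by_contra h
    simp only [not_exists, not_not] at h
    exact Algebra.trace_ne_zero k F (LinearMap.ext h)
  let ι : F →ₗ[F] S := LinearMap.toSpanSingleton F S s₀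
  let π : S →ₗ[F] F := (LinearMap.mul F F d) ∘ₗ lam
  refine ⟨ι ∘ₗ π, ?_⟩
  have h1 : (ι ∘ₗ π).restrictScalars k = (ι.restrictScalars k) ∘ₗ (π.restrictScalars k) := rfl
  rw [h1, LinearMap.trace_comp_comm']
  have h2 : (π.restrictScalars k) ∘ₗ (ι.restrictScalars k) = Algebra.lmul k F d := by
    apply LinearMap.ext
    intro c
    show d * lam (c • s₀) = d * c
    rw [map_smul, hlam, smul_eq_mul, mul_one]
  rw [h2]
  exact hd

section

variable (k : Type*) {A : Type*} [Field k] [Finite k] [Ring A] [Algebra k A]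
variable {ι : Type*} [Fintype ι] [DecidableEq ι] (X : ι → Type*)
  [∀ i, AddCommGroup (X i)] [∀ i, Module k (X i)] [∀ i, Module A (X i)]
  [∀ i, IsScalarTower k A (X i)] [∀ i, Module.Finite k (X i)] [∀ i, IsSimpleModule A (X i)]

/-- **Separation with nonzero trace.** For pairwise non-isomorphic simple modules `X j`,
finite-dimensional over a finite field `k`, there is `a : A` killing every `X j`, `j ≠ i`, whose
action on `X i` has nonzero `k`-trace. -/
theorem exists_trace_ne_zero_and_smul_eq_zero
    (hX : ∀ i j, Nonempty (X i ≃ₗ[A] X j) → i = j) (i : ι) :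
    ∃ a : A, LinearMap.trace k (X i) (Algebra.lsmul k k (X i) a) ≠ 0 ∧
      ∀ j, j ≠ i → ∀ x : X j, a • x = 0 := by
  classical
  haveI : Finite (X i) := Module.finite_of_finite k
  haveI : Finite (End A (X i)) :=
    Finite.of_injective (fun f : End A (X i) => (f : X i → X i)) DFunLike.coe_injective
  letI : DivisionRing (End A (X i)) := Module.End.instDivisionRing
  letI : Field (End A (X i)) := littleWedderburn (End A (X i))
  haveI : Nontrivial (X i) := IsSimpleModule.nontrivial A (X i)
  obtain ⟨ψ, hψ⟩ := exists_linearMap_trace_ne_zero k (End A (X i)) (X i)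
  let ψ' : End (End A (X i)) (X i) :=
    { toFun := ψ, map_add' := ψ.map_add, map_smul' := ψ.map_smul }
  obtain ⟨a, ha, ha0⟩ := exists_smul_eq_and_smul_eq_zero k X hX i ψ'
  refine ⟨a, ?_, ha0⟩
  have : Algebra.lsmul k k (X i) a = ψ.restrictScalars k := LinearMap.ext (fun x => ha x)
  rw [this]
  exact hψ

end

end Fermat.Agent.TW.Euler.BNFull
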