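import Fermat.Agent.TW.Euler.BNFull.Charpoly
import Fermat.Agent.TW.Euler.BNFull.TraceNe

/-!
# (EU-1a) Brauer–Nesbitt: multiplicities are determined by characteristic polynomials

`X i` a finite family of pairwise non-isomorphic simple `A`-modules, finite-dimensional over a
finite field `k` of characteristic `p`; `𝒢 ⊆ A` spans `A` over `k`.  If
`∏ i, charpoly (g | X i) ^ m i = ∏ i, charpoly (g | X i) ^ n i` for all `g ∈ 𝒢`, then `m = n`.
-/

set_option autoImplicit false

namespace Fermat.Agent.TW.Euler.BNFull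

open Module Polynomial

section

variable (k : Type*) {A : Type*} [Field k] [Ring A] [Algebra k A]

/-- The characteristic polynomial of the action of `a : A` on `M`. -/
noncomputable def chi (M : Type*) [AddCommGroup M] [Module k M] [Module A M]
    [IsScalarTower k A M] [Module.Finite k M] (a : A) : k[X] :=
  LinearMap.charpoly (Algebra.lsmul k k M a)

/-- The trace of the action of `a : A` on `M`, as a `k`-linear functional on `A`. -/
noncomputable def tau (M : Type*) [AddCommGroup M] [Module k M] [Module A M]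
    [IsScalarTower k A M] [Module.Finite k M] : A →ₗ[k] k :=
  (LinearMap.trace k M) ∘ₗ (Algebra.lsmul k k M).toLinearMap

theorem tau_apply (M : Type*) [AddCommGroup M] [Module k M] [Module A M]
    [IsScalarTower k A M] [Module.Finite k M] (a : A) :
    tau k M a = LinearMap.trace k M (Algebra.lsmul k k M a) := rfl

theorem chi_monic (M : Type*) [AddCommGroup M] [Module k M] [Module A M]
    [IsScalarTower k A M] [Module.Finite k M] (a : A) : (chi k M a).Monic :=
  LinearMap.charpoly_monic _

theorem nextCoeff_chi (M : Type*) [AddCommGroup M] [Module k M] [Module A M]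
    [IsScalarTower k A M] [Module.Finite k M] (a : A) :
    (chi k M a).nextCoeff = -tau k M a := by
  rw [tau_apply, trace_eq_neg_nextCoeff_charpoly, neg_neg]; rfl

theorem tau_eq_zero_of_smul_eq_zero (M : Type*) [AddCommGroup M] [Module k M] [Module A M]
    [IsScalarTower k A M] [Module.Finite k M] (a : A) (h : ∀ x : M, a • x = 0) :
    tau k M a = 0 := by
  have : Algebra.lsmul k k M a = 0 := LinearMap.ext h
  rw [tau_apply, this, map_zero]

end

section Family

variable (k : Type*) {A : Type*} [Field k] [Finite k] [Ring A] [Algebra k A]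
variable {ι : Type*} [Fintype ι] [DecidableEq ι] (X : ι → Type*)
  [∀ i, AddCommGroup (X i)] [∀ i, Module k (X i)] [∀ i, Module A (X i)]
  [∀ i, IsScalarTower k A (X i)] [∀ i, Module.Finite k (X i)] [∀ i, IsSimpleModule A (X i)]

omit [Finite k] [DecidableEq ι] [∀ i, IsSimpleModule A (X i)] in
/-- The trace identity obtained from the next-to-leading coefficients, extended linearly. -/
theorem sum_tau_eq_of_prod_chi_eq (𝒢 : Set A) (h𝒢 : Submodule.span k 𝒢 = ⊤) (m n : ι → ℕ)
    (h : ∀ g ∈ 𝒢, ∏ i, chi k (X i) g ^ m i = ∏ i, chi k (X i) g ^ n i) (a : A) :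
    ∑ i, (m i : k) * tau k (X i) a = ∑ i, (n i : k) * tau k (X i) a := by
  let L : (ι → ℕ) → (A →ₗ[k] k) := fun m => ∑ i, (m i : k) • tau k (X i)
  have hL : ∀ (m : ι → ℕ) (a : A), L m a = ∑ i, (m i : k) * tau k (X i) a := by
    intro m a
    simp [L, LinearMap.sum_apply]
  have hnc : ∀ (m : ι → ℕ) (g : A),
      (∏ i, chi k (X i) g ^ m i).nextCoeff = -(L m g) := by
    intro m g
    rw [Monic.nextCoeff_prod _ _ (fun i _ => (chi_monic k (X i) g).pow (m i)), hL,
      ← Finset.sum_neg_distrib]
    refine Finset.sum_congr rfl (fun i _ => ?_)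
    rw [Monic.nextCoeff_pow (chi_monic k (X i) g), nextCoeff_chi, nsmul_eq_mul, mul_neg]
  have hLL : L m = L n := by
    apply LinearMap.ext_on h𝒢
    intro g hg
    have := congrArg Polynomial.nextCoeff (h g hg)
    rw [hnc, hnc, neg_inj] at this
    exact this
  rw [← hL, ← hL, hLL]

variable (p : ℕ) [Fact p.Prime] [CharP k p]

/-- If the two multiplicity vectors have disjoint supports, all multiplicities are divisible by the
characteristic. -/
theorem dvd_of_prod_chi_eq (hX : ∀ i j, Nonempty (X i ≃ₗ[A] X j) → i = j)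
    (𝒢 : Set A) (h𝒢 : Submodule.span k 𝒢 = ⊤) (m n : ι → ℕ)
    (hmin : ∀ i, m i = 0 ∨ n i = 0)
    (h : ∀ g ∈ 𝒢, ∏ i, chi k (X i) g ^ m i = ∏ i, chi k (X i) g ^ n i) (i : ι) :
    p ∣ m i ∧ p ∣ n i := by
  obtain ⟨a, hane, ha0⟩ := exists_trace_ne_zero_and_smul_eq_zero k X hX i
  have hs := sum_tau_eq_of_prod_chi_eq k X 𝒢 h𝒢 m n h a
  have hz : ∀ j, j ≠ i → tau k (X j) a = 0 :=
    fun j hj => tau_eq_zero_of_smul_eq_zero k (X j) a (ha0 j hj)
  rw [Finset.sum_eq_single i (fun j _ hj => by rw [hz j hj, mul_zero])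
      (fun hi => absurd (Finset.mem_univ i) hi),
    Finset.sum_eq_single i (fun j _ hj => by rw [hz j hj, mul_zero])
      (fun hi => absurd (Finset.mem_univ i) hi)] at hs
  have hmn : (m i : k) = (n i : k) := mul_right_cancel₀ hane hs
  rcases hmin i with h0 | h0
  · rw [h0] at hmn ⊢
    rw [Nat.cast_zero] at hmn
    exact ⟨dvd_zero p, (CharP.cast_eq_zero_iff k p _).mp hmn.symm⟩
  · rw [h0] at hmn ⊢
    rw [Nat.cast_zero] at hmn
    exact ⟨(CharP.cast_eq_zero_iff k p _).mp hmn, dvd_zero p⟩

omit [Finite k] [DecidableEq ι] [∀ i, IsSimpleModule A (X i)] in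
theorem prod_chi_pow_ne_zero (c : ι → ℕ) (g : A) : ∏ i, chi k (X i) g ^ c i ≠ 0 :=
  (monic_prod_of_monic _ _ (fun i _ => (chi_monic k (X i) g).pow (c i))).ne_zero

include p in
/-- **Multiplicities are determined by the characteristic polynomials on a spanning set.** -/
theorem mult_eq_of_prod_chi_eq (hX : ∀ i j, Nonempty (X i ≃ₗ[A] X j) → i = j)
    (𝒢 : Set A) (h𝒢 : Submodule.span k 𝒢 = ⊤) :
    ∀ (N : ℕ) (m n : ι → ℕ), ∑ i, (m i + n i) ≤ N →
      (∀ g ∈ 𝒢, ∏ i, chi k (X i) g ^ m i = ∏ i, chi k (X i) g ^ n i) → m = n := by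
  intro N
  induction N with
  | zero =>
    intro m n hN _
    have h0 : ∀ i ∈ Finset.univ, m i + n i = 0 :=
      (Finset.sum_eq_zero_iff).mp (Nat.le_zero.mp hN)
    funext i
    have := h0 i (Finset.mem_univ i)
    omega
  | succ N ih =>
    intro m n hN h
    have hp2 : 2 ≤ p := (Fact.out : p.Prime).two_le
    -- cancel the common part
    set c : ι → ℕ := fun i => min (m i) (n i) with hc
    set m' : ι → ℕ := fun i => m i - c i with hm'
    set n' : ι → ℕ := fun i => n i - c i with hn'
    have hm : ∀ i, m i = c i + m' i := fun i => by simp only [hc, hm']; omega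
    have hn : ∀ i, n i = c i + n' i := fun i => by simp only [hc, hn']; omega
    have hmin : ∀ i, m' i = 0 ∨ n' i = 0 := fun i => by simp only [hc, hm', hn']; omega
    have h' : ∀ g ∈ 𝒢, ∏ i, chi k (X i) g ^ m' i = ∏ i, chi k (X i) g ^ n' i := by
      intro g hg
      have hg' := h g hg
      have e1 : ∏ i, chi k (X i) g ^ m i
          = (∏ i, chi k (X i) g ^ c i) * ∏ i, chi k (X i) g ^ m' i := by
        rw [← Finset.prod_mul_distrib]
        exact Finset.prod_congr rfl (fun i _ => by rw [hm i, pow_add])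
      have e2 : ∏ i, chi k (X i) g ^ n i
          = (∏ i, chi k (X i) g ^ c i) * ∏ i, chi k (X i) g ^ n' i := by
        rw [← Finset.prod_mul_distrib]
        exact Finset.prod_congr rfl (fun i _ => by rw [hn i, pow_add])
      rw [e1, e2] at hg'
      exact mul_left_cancel₀ (prod_chi_pow_ne_zero k X c g) hg'
    have hdvd := dvd_of_prod_chi_eq k X p hX 𝒢 h𝒢 m' n' hmin h'
    set m'' : ι → ℕ := fun i => m' i / p with hm''
    set n'' : ι → ℕ := fun i => n' i / p with hn''
    have hmm : ∀ i, m' i = m'' i * p := fun i => (Nat.div_mul_cancel (hdvd i).1).symm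
    have hnn : ∀ i, n' i = n'' i * p := fun i => (Nat.div_mul_cancel (hdvd i).2).symm
    have h'' : ∀ g ∈ 𝒢, ∏ i, chi k (X i) g ^ m'' i = ∏ i, chi k (X i) g ^ n'' i := by
      intro g hg
      apply pow_char_injective p
      rw [← Finset.prod_pow, ← Finset.prod_pow]
      have := h' g hg
      calc ∏ i, (chi k (X i) g ^ m'' i) ^ p = ∏ i, chi k (X i) g ^ m' i :=
            Finset.prod_congr rfl (fun i _ => by rw [← pow_mul, ← hmm i])
        _ = ∏ i, chi k (X i) g ^ n' i := this
        _ = ∏ i, (chi k (X i) g ^ n'' i) ^ p :=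
            Finset.prod_congr rfl (fun i _ => by rw [← pow_mul, ← hnn i])
    have hbound : ∑ i, (m'' i + n'' i) ≤ N := by
      have e : (∑ i, (m'' i + n'' i)) * p = ∑ i, (m' i + n' i) := by
        rw [Finset.sum_mul]
        exact Finset.sum_congr rfl (fun i _ => by rw [add_mul, ← hmm i, ← hnn i])
      have l1 : ∑ i, (m' i + n' i) ≤ ∑ i, (m i + n i) :=
        Finset.sum_le_sum (fun i _ => by rw [hm i, hn i]; omega)
      have l2 : (∑ i, (m'' i + n'' i)) * 2 ≤ (∑ i, (m'' i + n'' i)) * p :=
        Nat.mul_le_mul_left _ hp2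
      omega
    have hEq := ih m'' n'' hbound h''
    funext i
    rw [hm i, hn i, hmm i, hnn i, hEq]

end Family

end Fermat.Agent.TW.Euler.BNFull
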